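import Fermat.Agent.S43.Q.Ctx

/-!
# S43 / Q / Loc : **(LOC)** local `m`-th roots at all closed points of the special fibre      (owner: helper13)

`C : CtxQ M ℓ r π Φ w X`, `ℓ = π ^ e * unit`, `gcd (m, 12 e) = 1`.  `W ∈ F` a vertical unit (`VEq Q₁ π 0 W`, `VEq Q₂ π 0 W`) with `InvK π m W`
(`m ∣ div W` on the generic fibre of the chart).  Then for every maximal ideal `n ∋ π` of the chart ring `SM A F`
(chart `X`: all of them; chart `1/X`: those containing the coordinate, i.e. the cusps)  there are `y ≠ 0`, `s t ∉ n` with `s (y ^ m W) = t`.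
-/

set_option autoImplicit false
set_option linter.unusedSectionVars false
set_option linter.style.haveILetI false

open Polynomial ModularCurve

namespace Fermat.Agent.S43.Q

open Fermat.Agent.Crux.G Fermat.Agent.SS.G2 Fermat.Agent.S44.Loc Fermat.Agent.SS.GM2
open Fermat.Agent.S44.Bridge
open Fermat.Agent.S28 (V J evAt uInf)
open Fermat.Agent.Crux.GM (castS)
open Fermat.Agent.S44

noncomputable section

variable {M ℓ : ℕ} [NeZero M] [NeZero ℓ]
variable {A K k : Type} [CommRing A] [IsDomain A] [IsDiscreteValuationRing A] [Field K]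
  [CharZero K] [Algebra A K] [IsFractionRing A K] [Field k] [Finite k]
  {r : A →+* k} {π : A}
variable {F : Type} [Field F] [Algebra A F] {Φ : F →+* LaurentSeries K} {w : F →+* F}
variable {E : Type} [Field E] [CharZero E] [Algebra A E] [Algebra E F] [IsScalarTower A E F]
  [FiniteDimensional E F]

namespace CtxQ

variable {X : E} (C : CtxQ M ℓ r π Φ w X)
include C

/-- **(LOC)**, chart `X` (all the non-cuspidal closed points: nodes and smooth points of both components). -/
theorem loc0 {e : ℕ} (he : 0 < e) {u u' : A} (hu : u * u' = 1) (hℓe : (ℓ : A) = π ^ e * u) :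
    letI := algL (A := A) F X
    ∀ {B : BridgeData C.S.hπ.prime F k (LaurentSeries k)}, Good M r Φ w (castS k (Xh M ℓ)) B →
    ∀ {m : ℕ}, 0 < m → Nat.Coprime m (12 * e) → ∀ {W : F},
      VEq (Q₁ B) (pi π F) 0 W → VEq (Q₂ B) (pi π F) 0 W → InvK (pi π F) m W →
    ∀ n : Ideal (SM A F), n.IsMaximal → pi π F ∈ n →
      ∃ (y : F) (s t : SM A F), y ≠ 0 ∧ s ∉ n ∧ t ∉ n ∧
        algebraMap (SM A F) F s * (y ^ m * W) = algebraMap (SM A F) F t := by
  letI := algE (A := A) X
  letI := algL (A := A) F X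
  haveI := isFractionRing_algE C.hXt C.hgen
  haveI : IsScalarTower A[X] E F := isScalarTower_alg X
  intro B G m hm hmT W hW1 hW2 hinv n hn hπn
  haveI : IsNoetherianRing (SM A F) := isNoetherianRing_SM E
  haveI : IsFractionRing (SM A F) F := isFractionRing_SM E
  obtain ⟨X₀, U, ε, hXD, -⟩ := C.exists_XData he hu hℓe G
  have hnorm : Normal (O := SM A F) F (pi π F) := normal
  rcases G.trichotomy E hn hπn with h | ⟨h, -⟩ | ⟨h, -⟩
  · exact locNodeAt h hnorm hm hXD hmT hW1 hW2 hinv
  · exact locSmoothAt h hnorm hm hW1 hinv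
  · exact locSmoothAt h hnorm hm hW2 hinv

/-- **(LOC)**, chart `1/X`, at the cusps (any `m > 0`). -/
theorem locinf : letI := algL (A := A) F X⁻¹
    ∀ {B : BridgeData C.S.hπ.prime F k (LaurentSeries k)}, Good M r Φ w (castS k (Xh M ℓ))⁻¹ B →
    ∀ {m : ℕ}, 0 < m → ∀ {W : F},
      VEq (Q₁ B) (pi π F) 0 W → VEq (Q₂ B) (pi π F) 0 W → InvK (pi π F) m W →
    ∀ n : Ideal (SM A F), n.IsMaximal → pi π F ∈ n → algebraMap A[X] (SM A F) Polynomial.X ∈ n →
      ∃ (y : F) (s t : SM A F), y ≠ 0 ∧ s ∉ n ∧ t ∉ n ∧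
        algebraMap (SM A F) F s * (y ^ m * W) = algebraMap (SM A F) F t := by
  letI := algE (A := A) X⁻¹
  letI := algL (A := A) F X⁻¹
  haveI := isFractionRing_algE (transcendental_inv C.hXt) (hgen_inv C.hXt C.hgen)
  haveI : IsScalarTower A[X] E F := isScalarTower_alg X⁻¹
  intro B G m hm W hW1 hW2 hinv n hn hπn hx
  haveI : IsNoetherianRing (SM A F) := isNoetherianRing_SM E
  haveI : IsFractionRing (SM A F) F := isFractionRing_SM E
  have hnorm : Normal (O := SM A F) F (pi π F) := normal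
  obtain ⟨Jf, Yf, hJ, hY⟩ := C.S.exists_J
  have hXe := algebraMap_X_eq C hJ hY
  rcases G.trichotomy E hn hπn with h | ⟨h, -⟩ | ⟨h, -⟩
  · refine absurd h.le2 (G.not_node_of_cusp C.S hJ hY (fun P => ?_) hn.ne_top hx h.le1)
    change algebraMap E F (aeval X⁻¹ P) = _
    rw [← aeval_algebraMap_apply, map_inv₀, hXe]
  · exact locSmoothAt h hnorm hm hW1 hinv
  · exact locSmoothAt h hnorm hm hW2 hinv

end CtxQ

end

end Fermat.Agent.S43.Q
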