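import Fermat.Agent.S43.Q.Dict
import Fermat.Agent.S43.Q.Inst
import Fermat.Agent.S43.QF.Coeff
import Fermat.Agent.S44.Const.Places.Transfer

/-!
# S43 / Q / EVLoc : from a Gauss unit `fz` over the inertia field to the local statements (LOC)      (owner: helper13)

Input  : `fz : Dm (M q) e` with coefficients in `L0 A`, `RedTo A fz φ₁`, `RedTo A (w fz) φ₂`, `φ₁ φ₂ ≠ 0`  (vertical unit at `v_∞` and `v_0`).
Output : an unramified number field `K₀ ≤ L0 A`, a context `CtxQ M q (residue) q Φ w' X` over `A ∩ K₀`, `W : F` with `bc K₀ (Φ W) = fz`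
         and the conclusions of `CtxQ.loc0`, `CtxQ.locinf` for `W` (exponent `e`).
-/

set_option autoImplicit false
set_option linter.unusedSectionVars false
set_option linter.style.haveILetI false

open Polynomial AlgebraicCurve ModularCurve

namespace Fermat.Agent.S43.Q

open Fermat.Agent.ES Fermat.Agent.SS Fermat.Agent.SS.GM2
open Fermat.Agent.Crux.G Fermat.Agent.SS.G2 Fermat.Agent.S44.Loc
open Fermat.Agent.S44.Bridge
open Fermat.Agent.S44.Cover (LL bc)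
open Fermat.Agent.Crux.GM (castS)
open Fermat.Agent.Crux (A0)
open Fermat.Agent.S44.Const.Places (Compat compat_A0)

section Abs

variable {A : ValuationSubring Qb} {A₀ K k₀ : Type*} [CommRing A₀] [IsDomain A₀] [Field K]
  [Algebra A₀ K] [IsFractionRing A₀ K] [Algebra K Qb] [Field k₀] {r : A₀ →+* k₀}
  {e₀ : k₀ →+* kA A} {π : A₀}
variable {O F : Type*} [CommRing O] [IsDomain O] [Field F] [Algebra O F] [IsFractionRing O F]
  {Ψ : F →+* LaurentSeries K} {ρ : O →+* LaurentSeries k₀} {ϖ : O}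

/-- a Gauss unit over `(ℚ̄, A)` has valuation `0` at `ker ρ`. -/
theorem vEq_zero_of_redTo [IsNoetherianRing O] (Cm : Compat A (K := K) r e₀)
    (D : RedData r π Ψ ρ ϖ) (hP : LocPrin (RingHom.ker ρ) ϖ) {z : F}
    {φ : LaurentSeries (kA A)} (h : RedTo A (coeffMap (algebraMap K Qb) (Ψ z)) φ) (hφ : φ ≠ 0) :
    VEq (RingHom.ker ρ) ϖ 0 z := by
  have h00 : RedTo A (0 : LaurentSeries Qb) 0 := by
    have := Cm.redTo (RedK.zero (r := r) (K := K))
    rwa [map_zero, map_zero] at this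
  have hz : z ≠ 0 := by
    rintro rfl
    rw [map_zero, map_zero] at h
    exact hφ (h.unique h00)
  obtain ⟨j, hj⟩ := exists_vEq hP hz
  obtain ⟨s, o, hs, ho, h2⟩ := D.of_vEq hj
  rcases lt_trichotomy j 0 with hlt | rfl | hlt
  · exfalso
    obtain ⟨n, hn, hjn⟩ : ∃ n : ℕ, n ≠ 0 ∧ -j = n := ⟨(-j).toNat, by omega, by omega⟩
    have h3 := Cm.redTo h2
    have h4 := Cm.redTo (D.redK_pow hn)
    rw [map_zero] at h4
    have h5 := h.mul h4
    rw [mul_zero, ← map_mul, ← zpow_natCast, ← hjn] at h5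
    have h6 := h3.unique h5
    exact div_ne_zero ho hs ((coeffMap e₀).injective (by rw [h6, map_zero]))
  · exact hj
  · exfalso
    have h3 := Cm.redTo (D.redK_shift hlt h2)
    rw [neg_zero, zpow_zero, mul_one, map_zero] at h3
    exact hφ (h.unique h3)

end Abs

noncomputable section

set_option maxHeartbeats 1000000 in
/-- **(LOC) for a Gauss unit over the inertia field.** -/
theorem exists_loc_of_redTo (M q e : ℕ) [NeZero M] [NeZero q] (hq : q.Prime) (hqM : ¬ q ∣ M)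
    (hadm : Fermat.Agent.Crux.Admissible q M) (he : 0 < e) (he12 : Nat.Coprime e 12)
    {A : ValuationSubring Qb} (hA : A.LiesOverPrime q)
    (w : FF (M * q) →ₐ[Qb] FF (M * q)) (hw : IsAL M q w) (fz : Dm (M * q) e)
    (hf : ∀ n : ℤ, ((((fz : (FF (M * q))ˣ) : FF (M * q)) : LaurentSeries Qb)).coeff n
      ∈ Fermat.Agent.S36.Base.L0 A)
    {φ₁ φ₂ : LaurentSeries (kA A)}
    (h₁ : RedTo A (((fz : (FF (M * q))ˣ) : FF (M * q)) : LaurentSeries Qb) φ₁) (hφ₁ : φ₁ ≠ 0)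
    (h₂ : RedTo A ((w ((fz : (FF (M * q))ˣ) : FF (M * q)) : FF (M * q)) : LaurentSeries Qb) φ₂)
    (hφ₂ : φ₂ ≠ 0) :
    ∃ (K₀ : IntermediateField ℚ Qb) (_ : NumberField K₀)
      (_ : IsDiscreteValuationRing (A0 K₀ A)) (_ : Finite (IsLocalRing.ResidueField (A0 K₀ A)))
      (F E : Type) (_ : Field F) (_ : Algebra (A0 K₀ A) F) (_ : Field E) (_ : CharZero E)
      (_ : Algebra (A0 K₀ A) E) (_ : Algebra E F) (_ : IsScalarTower (A0 K₀ A) E F)
      (_ : FiniteDimensional E F)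
      (Φ : F →+* LaurentSeries K₀) (w' : F →+* F) (X : E) (W : F),
      K₀ ≤ Fermat.Agent.S36.Base.L0 A ∧
      CtxQ M q (IsLocalRing.residue (A0 K₀ A)) (q : A0 K₀ A) Φ w' X ∧
      bc K₀ (Φ W) = (((fz : (FF (M * q))ˣ) : FF (M * q)) : LL) ∧
      (letI := algL (A := A0 K₀ A) F X
       ∀ n : Ideal (SM (A0 K₀ A) F), n.IsMaximal → pi (q : A0 K₀ A) F ∈ n →
        ∃ (y : F) (s t : SM (A0 K₀ A) F), y ≠ 0 ∧ s ∉ n ∧ t ∉ n ∧
          algebraMap (SM (A0 K₀ A) F) F s * (y ^ e * W) = algebraMap (SM (A0 K₀ A) F) F t) ∧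
      (letI := algL (A := A0 K₀ A) F X⁻¹
       ∀ n : Ideal (SM (A0 K₀ A) F), n.IsMaximal → pi (q : A0 K₀ A) F ∈ n →
        algebraMap (A0 K₀ A)[X] (SM (A0 K₀ A) F) Polynomial.X ∈ n →
        ∃ (y : F) (s t : SM (A0 K₀ A) F), y ≠ 0 ∧ s ∉ n ∧ t ∉ n ∧
          algebraMap (SM (A0 K₀ A) F) F s * (y ^ e * W) = algebraMap (SM (A0 K₀ A) F) F t) := by
  haveI : Fact q.Prime := ⟨hq⟩
  obtain ⟨K₀, iN, iD, iFin, wK, W₀, hirr, hK, hwK, hwK', hW₀, hI0, hIinf⟩ :=
    Fermat.Agent.S43.QF.exists_pkg_L0 hq he hA w hw fz hf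
  obtain ⟨_, F, E, iF, iAF, iE, iE0, iAE, iEF, iT, iFD, Φ, w', X, C, hF⟩ :=
    exists_ctxQ M q hq hqM hadm (IsLocalRing.residue (A0 K₀ A))
      IsLocalRing.residue_surjective (Fermat.Agent.Crux.residue_A0_natCast K₀ A hA)
      (q : A0 K₀ A) hirr wK hwK (wK_XD hw wK hwK')
  obtain ⟨W, hW, hwW⟩ := hF W₀
  have hb1 : bc K₀ (Φ W) = (((fz : (FF (M * q))ˣ) : FF (M * q)) : LL) := by rw [hW]; exact hW₀
  have hb2 : bc K₀ (Φ (w' W))
      = ((w ((fz : (FF (M * q))ˣ) : FF (M * q)) : FF (M * q)) : LL) := by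
    rw [hwW]; exact (hwK' W₀ _ hW₀.symm).symm
  have h1 : ((q : ℕ) : A0 K₀ A) = (q : A0 K₀ A) ^ 1 * 1 := by rw [pow_one, mul_one]
  have Cm := compat_A0 A K₀
  refine ⟨K₀, iN, iD, iFin, F, E, iF, iAF, iE, iE0, iAE, iEF, iT, iFD, Φ, w', X, W, hK, C, hb1,
    ?_, ?_⟩
  · letI := algE (A := A0 K₀ A) X
    letI := algL (A := A0 K₀ A) F X
    haveI := isFractionRing_algE C.hXt C.hgen
    haveI : IsScalarTower (A0 K₀ A)[X] E F := isScalarTower_alg X
    haveI : IsNoetherianRing (SM (A0 K₀ A) F) := isNoetherianRing_SM E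
    haveI : IsFractionRing (SM (A0 K₀ A) F) F := isFractionRing_SM E
    obtain ⟨B, G, -⟩ := C.exists_good0
    exact C.loc0 one_pos (one_mul 1) h1 G he (by rw [mul_one]; exact he12)
      (vEq_zero_of_redTo Cm G.redData₁ (G.locPrin₁ E) (z := W) (by rw [← hb1] at h₁; exact h₁) hφ₁)
      (vEq_zero_of_redTo Cm G.redData₂ (G.locPrin₂ E) (z := W) (by rw [← hb2] at h₂; exact h₂) hφ₂)
      (C.invK0 (by rw [hW]; exact hI0))
  · letI := algE (A := A0 K₀ A) X⁻¹
    letI := algL (A := A0 K₀ A) F X⁻¹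
    haveI := isFractionRing_algE (transcendental_inv C.hXt) (hgen_inv C.hXt C.hgen)
    haveI : IsScalarTower (A0 K₀ A)[X] E F := isScalarTower_alg X⁻¹
    haveI : IsNoetherianRing (SM (A0 K₀ A) F) := isNoetherianRing_SM E
    haveI : IsFractionRing (SM (A0 K₀ A) F) F := isFractionRing_SM E
    obtain ⟨B, G, -⟩ := C.exists_goodinf
    exact C.locinf G he
      (vEq_zero_of_redTo Cm G.redData₁ (G.locPrin₁ E) (z := W) (by rw [← hb1] at h₁; exact h₁) hφ₁)
      (vEq_zero_of_redTo Cm G.redData₂ (G.locPrin₂ E) (z := W) (by rw [← hb2] at h₂; exact h₂) hφ₂)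
      (C.invKinf (by rw [hW]; exact hIinf))

end

end Fermat.Agent.S43.Q
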