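import Fermat.Agent.S44.Bridge.Ctx
import Fermat.Agent.S44.Inst.Ctx
import Fermat.Agent.S44.XD.Field
import Fermat.Agent.SS.GM2.Desc.WK
import Fermat.Agent.Crux.GM.Haupt

/-!
# S43 / Q / Ctx : the `ζ`-free two-chart context at the level prime `ℓ`  (owner: helper13)

Setting of `SS/GM2/Core.lean` / `S44/PL/Ctx.lean`:  `A` a DVR with ANY uniformiser `π`, `K = Frac A`, `r : A → k` the residue map
(`k` finite), `Φ : F → K((q))` with image `F_K(M ℓ)`, `w` the Atkin-Lehner involution, `E = K(X) ⊆ F`, `Φ X = j(q^M) j(q^(Mℓ))`.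
In contrast with `S44.PL.Ctx` NO root of unity `ζ_ℓ` is required in `A` (so `A` may be unramified over `ℤ_(ℓ)`).

* `XD_mem_fullC'`, `uInf_mem_fullC'` : the modular unit lies in `F_K(M ℓ)` for every field `K` of characteristic `0`;
* `CtxQ` : the context;  `CtxQ.exists_good0`, `CtxQ.exists_goodinf` : the `Bridge.Good` data of the charts `X`, `1/X`;
* `CtxQ.exists_XData` : `XData` with `T = 12 e` if `ℓ = π ^ e * unit`;
* `CtxQ.loc0`, `CtxQ.locinf` : **(LOC)** `W` a vertical unit with `InvK`, `gcd (m, 12 e) = 1`: at every closed point `n` of the special fibre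
  (chart `X`: all; chart `1/X`: the cusps) `y ^ m * W` is a unit of the local ring for some `y ≠ 0`.
-/

set_option autoImplicit false
set_option linter.unusedSectionVars false
set_option linter.style.haveILetI false

open Polynomial ModularCurve

namespace Fermat.Agent.S43.Q

open Fermat.Agent.Crux.G Fermat.Agent.SS.G2 Fermat.Agent.S44.Loc Fermat.Agent.SS.GM2
open Fermat.Agent.S44.Bridge
open Fermat.Agent.S28 (V J evAt uInf)
open Fermat.Agent.Crux.GM (castS)
open Fermat.Agent.S44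

noncomputable section

/-! ### the modular unit over an arbitrary field of characteristic `0` -/

section Field

variable (K : Type) [Field K] [CharZero K] (M ℓ : ℕ) [NeZero M] [NeZero ℓ] [Fact ℓ.Prime]

theorem exists_root_algClosure :
    ∃ ζ : AlgebraicClosure K, IsPrimitiveRoot ζ ℓ := by
  haveI : NeZero ((ℓ : ℕ) : AlgebraicClosure K) := ⟨Nat.cast_ne_zero.2 (NeZero.ne ℓ)⟩
  exact HasEnoughRootsOfUnity.exists_primitiveRoot (AlgebraicClosure K) ℓ

theorem XD_mem_fullC' : XD.XD K ℓ ∈ modularFunctionFieldFullC K (M * ℓ) := by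
  haveI : NeZero (M * ℓ) := ⟨Nat.mul_ne_zero (NeZero.ne M) (NeZero.ne ℓ)⟩
  obtain ⟨ζ, hζ⟩ := exists_root_algClosure K ℓ
  refine Fermat.Agent.Crux.GM.mem_full_of_coeffMap_mem (M * ℓ) K (AlgebraicClosure K)
    (algebraMap K (AlgebraicClosure K)) (fun p hp _ => Nat.cast_ne_zero.2 hp.ne_zero) _ ?_
  rw [XD.coeffMap_XD]
  exact XD.XD_mem_fullC M hζ

theorem uInf_mem_fullC' : uInf K ℓ ∈ modularFunctionFieldFullC K (M * ℓ) := by
  haveI : NeZero (M * ℓ) := ⟨Nat.mul_ne_zero (NeZero.ne M) (NeZero.ne ℓ)⟩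
  obtain ⟨ζ, hζ⟩ := exists_root_algClosure K ℓ
  refine Fermat.Agent.Crux.GM.mem_full_of_coeffMap_mem (M * ℓ) K (AlgebraicClosure K)
    (algebraMap K (AlgebraicClosure K)) (fun p hp _ => Nat.cast_ne_zero.2 hp.ne_zero) _ ?_
  rw [Fermat.Agent.S28.Build.coeffMap_uInf]
  exact XD.uInf_mem_fullC M hζ

end Field

variable {M ℓ : ℕ} [NeZero M] [NeZero ℓ]
variable {A K k : Type} [CommRing A] [IsDomain A] [IsDiscreteValuationRing A] [Field K]
  [CharZero K] [Algebra A K] [IsFractionRing A K] [Field k] [Finite k]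
  {r : A →+* k} {π : A}
variable {F : Type} [Field F] [Algebra A F] {Φ : F →+* LaurentSeries K} {w : F →+* F}
variable {E : Type} [Field E] [CharZero E] [Algebra A E] [Algebra E F] [IsScalarTower A E F]
  [FiniteDimensional E F]

variable (M ℓ r π Φ w) in
/-- the two-chart context, without roots of unity. -/
structure CtxQ (X : E) : Prop where
  S : Setup M ℓ r π Φ w
  hX : Φ (algebraMap E F X) = castS K (Xh M ℓ)
  hXt : Transcendental A X
  hgen : ∀ c : E, ∃ P Q : A[X], Q ≠ 0 ∧ c * aeval X Q = aeval X P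
  wX : w (algebraMap E F X) = algebraMap E F X
  ql : QL M r π Φ w (algebraMap E F X)
  lift0 : ∀ a ∈ modularFunctionFieldFullC k M, (evAt (castS k (Xh M ℓ))).IsIntegralElem a →
    ∃ c : F, IntX A X c ∧ RedK r (Φ c) a ∧ RedK r (Φ (w c)) (V k ℓ a)
  liftinf : ∀ a ∈ modularFunctionFieldFullC k M, (evAt (castS k (Xh M ℓ))⁻¹).IsIntegralElem a →
    ∃ c : F, IntX A X⁻¹ c ∧ RedK r (Φ c) a ∧ RedK r (Φ (w c)) (V k ℓ a)
  xd : ∃ Xf Uf : F, Φ Xf = XD.XD K ℓ ∧ Φ Uf = uInf K ℓ ∧ w Xf = Uf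

namespace CtxQ

variable {X : E} (C : CtxQ M ℓ r π Φ w X)
include C

theorem hℓ : ℓ.Prime := C.S.hℓ

theorem X_ne_zero : X ≠ 0 := fun h => C.hXt (h ▸ isAlgebraic_zero)

theorem redX : RedK r (Φ (algebraMap E F X)) (castS k (Xh M ℓ)) := by
  rw [C.hX]; exact RedK.of_castS _

theorem xk_ne_zero : castS k (Xh M ℓ) ≠ 0 := by
  rw [castS, map_mul]
  exact mul_ne_zero (castS_Jh_ne_zero k M) (castS_Jh_ne_zero k (M * ℓ))

theorem xk_order_neg : (castS k (Xh M ℓ)).order < 0 := by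
  have e : castS k (Xh M ℓ) = castS k (Jh M) * castS k (Jh (M * ℓ)) :=
    map_mul (coeffMap (Int.castRingHom k)) _ _
  rw [e, HahnSeries.order_mul (castS_Jh_ne_zero k M) (castS_Jh_ne_zero k (M * ℓ)),
    order_castS_Jh, order_castS_Jh]
  have : 0 < M * ℓ := Nat.pos_of_ne_zero (NeZero.ne _)
  have h2 : (0 : ℤ) < ((M * ℓ : ℕ) : ℤ) := by exact_mod_cast this
  have h3 : (0 : ℤ) ≤ (M : ℤ) := Int.natCast_nonneg _
  omega

theorem xk_transcendental : Transcendental k (castS k (Xh M ℓ)) :=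
  Fermat.Agent.Crux.GM.transcendental_of_order_neg _ (xk_order_neg C)

theorem xk_inv_transcendental : Transcendental k (castS k (Xh M ℓ))⁻¹ :=
  fun h => xk_transcendental C (IsAlgebraic.inv_iff.mp h)

/-- chart `X`. -/
theorem exists_good0 : letI := algL (A := A) F X
    ∃ B : BridgeData C.S.hπ.prime F k (LaurentSeries k),
      Good M r Φ w (castS k (Xh M ℓ)) B ∧ B.Φ = V k ℓ := by
  haveI : Fact ℓ.Prime := ⟨C.hℓ⟩
  haveI hchar : CharP k ℓ := by
    have : (ℓ : k) = 0 := by rw [← map_natCast r, C.S.hrℓ]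
    exact (CharP.charP_iff_prime_eq_zero C.hℓ).mpr this
  exact exists_good C.S X (castS k (Xh M ℓ)) C.redX C.wX (V_castS k ℓ _) C.ql C.lift0
    (xk_transcendental C)

/-- chart `1/X`. -/
theorem exists_goodinf : letI := algL (A := A) F X⁻¹
    ∃ B : BridgeData C.S.hπ.prime F k (LaurentSeries k),
      Good M r Φ w (castS k (Xh M ℓ))⁻¹ B ∧ B.Φ = V k ℓ := by
  haveI : Fact ℓ.Prime := ⟨C.hℓ⟩
  haveI hchar : CharP k ℓ := by
    have : (ℓ : k) = 0 := by rw [← map_natCast r, C.S.hrℓ]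
    exact (CharP.charP_iff_prime_eq_zero C.hℓ).mpr this
  have hXF0 : algebraMap E F X ≠ 0 := by
    rw [Ne, map_eq_zero]; exact C.X_ne_zero
  have QXi : QL M r π Φ w (algebraMap E F X⁻¹) := by
    rw [map_inv₀]; exact C.ql.inv C.S.hπ hXF0
  exact exists_good C.S X⁻¹ (castS k (Xh M ℓ))⁻¹
    (by rw [map_inv₀, map_inv₀]; exact C.redX.inv (xk_ne_zero C))
    (by rw [map_inv₀, map_inv₀, C.wX])
    (by rw [map_inv₀, V_castS k ℓ, inv_pow]) QXi C.liftinf (xk_inv_transcendental C)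

/-- `X = J Y`. -/
theorem algebraMap_X_eq {Jf Yf : F} (hJ : Φ Jf = castS K (Jh M))
    (hY : Φ Yf = castS K (Jh (M * ℓ))) : algebraMap E F X = Jf * Yf := by
  apply Φ.injective
  rw [C.hX, map_mul, hJ, hY]
  exact map_mul (coeffMap (Int.castRingHom K)) _ _

/-- **the modular unit** in the chart `X`:  `T = 12 e` if `ℓ = π ^ e * unit`. -/
theorem exists_XData {e : ℕ} (he : 0 < e) {u u' : A} (hu : u * u' = 1)
    (hℓe : (ℓ : A) = π ^ e * u) : letI := algL (A := A) F X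
    ∀ {B : BridgeData C.S.hπ.prime F k (LaurentSeries k)}, Good M r Φ w (castS k (Xh M ℓ)) B →
    ∃ X₀ U ε : SM A F, XData F (pi π F) (Q₁ B) (Q₂ B) X₀ (12 * e) ∧
      X₀ * U = pi π F ^ (12 * e) * ε ∧ IsUnit ε ∧
      Φ (X₀ : F) = XD.XD K ℓ ∧ r₁ B X₀ = XD.XD k ℓ := by
  letI := algL (A := A) F X
  intro B G
  haveI : Fact ℓ.Prime := ⟨C.hℓ⟩
  obtain ⟨Jf, Yf, hJ, hY⟩ := C.S.exists_J
  have hXe := algebraMap_X_eq C hJ hY
  obtain ⟨Xf, Uf, hX, hU, hw⟩ := C.xd
  have hw' : w Uf = Xf := by rw [← hw, C.S.hww]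
  have hXU : Xf * Uf = algebraMap A F ((ℓ : A) ^ 12) := XD.Setup.XD_mul C.S hX hU
  have hiX : IntX A (Jf * Yf) Xf :=
    XD.Setup.intX_of_isIntegralElem_J C.S hJ hY (XD.isIntegralElem_XD A ℓ)
      (by rw [hX, XD.coeffMap_XD])
  have hiU : IntX A (Jf * Yf) Uf :=
    XD.Setup.intX_of_isIntegralElem_J C.S hJ hY (XD.isIntegralElem_uInf A ℓ)
      (by rw [hU, Fermat.Agent.S28.Build.coeffMap_uInf])
  have hr1 : RedK r (Φ Xf) (XD.XD k ℓ) := by rw [hX]; exact XD.redK_XD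
  have hr2 : RedK r (Φ (w Uf)) (XD.XD k ℓ) := by rw [hw', hX]; exact XD.redK_XD
  rw [← hXe] at hiX hiU
  have hiX' : IsIntegral A[X] Xf := (intX_algebraMap_iff X Xf).1 hiX
  have hiU' : IsIntegral A[X] Uf := (intX_algebraMap_iff X Uf).1 hiU
  let X₀ : SM A F := ⟨Xf, hiX'⟩
  let U : SM A F := ⟨Uf, hiU'⟩
  let ε : SM A F := algebraMap A[X] (SM A F) (Polynomial.C (u ^ 12))
  let ε' : SM A F := algebraMap A[X] (SM A F) (Polynomial.C (u' ^ 12))
  have hεε' : ε * ε' = 1 := by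
    change algebraMap A[X] (SM A F) _ * algebraMap A[X] (SM A F) _ = 1
    rw [← map_mul, ← C_mul, ← mul_pow, hu, one_pow, C_1, map_one]
  have hε : IsUnit ε := IsUnit.of_mul_eq_one _ hεε'
  have hmul : X₀ * U = pi π F ^ (12 * e) * ε := by
    apply Subtype.ext
    change Xf * Uf = ((pi π F ^ (12 * e) * ε : SM A F) : F)
    rw [hXU, pi, ← map_pow, ← map_mul, ← C_pow, ← C_mul, coe_algebraMap_C, hℓe]
    congr 1
    ring
  have h1 : r₁ B X₀ = XD.XD k ℓ := (G.redK_r₁ X₀).unique hr1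
  have h2 : r₂ B U = XD.XD k ℓ := (G.redK_r₂ U).unique hr2
  have hT : 0 < 12 * e := by omega
  have hX₀ : (X₀ : F) ≠ 0 := by
    intro h0
    have : Φ Xf = 0 := by
      change Xf = 0 at h0
      rw [h0, map_zero]
    rw [hX] at this
    exact XD.XD_ne_zero ℓ this
  refine ⟨X₀, U, ε, ⟨hT, ?_, ?_, ?_⟩, hmul, hε, hX, h1⟩
  · rw [mem_Q₁, h1]
    exact XD.XD_ne_zero ℓ
  · refine ⟨U, ε, ?_, ?_, ?_⟩
    · rw [mem_Q₂, h2]
      exact XD.XD_ne_zero ℓ
    · intro hm
      exact (inferInstance : (Q₂ B).IsPrime).ne_top (Ideal.eq_top_of_isUnit_mem _ hm hε)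
    · rw [zpow_natCast, ← map_pow, ← map_mul, ← map_mul, mul_comm, hmul]
  · refine ⟨12 * e, U * ε', ?_⟩
    have e1 := congrArg (algebraMap (SM A F) F) hmul
    have e2 := congrArg (algebraMap (SM A F) F) hεε'
    rw [map_mul, map_mul, map_pow] at e1
    rw [map_mul, map_one] at e2
    have hX₀' : algebraMap (SM A F) F X₀ ≠ 0 := hX₀
    rw [map_mul]
    calc algebraMap (SM A F) F (pi π F) ^ (12 * e) * (algebraMap (SM A F) F X₀)⁻¹
        = (algebraMap (SM A F) F (pi π F) ^ (12 * e) * algebraMap (SM A F) F ε)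
            * algebraMap (SM A F) F ε' * (algebraMap (SM A F) F X₀)⁻¹ := by
          rw [mul_assoc (_ ^ _), e2, mul_one]
      _ = algebraMap (SM A F) F U * algebraMap (SM A F) F ε' := by
          rw [← e1]; field_simp

end CtxQ

end

end Fermat.Agent.S43.Q
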