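import Fermat.Agent.S43.Q.Loc

/-!
# S43 / Q / Dict : series dictionary for `Q/Loc`      (owner: helper13; leaf (L-B) of (EV))

`C : CtxQ M ℓ r π Φ w X`.  For `W : F`:
* `RedK r (Φ W) φ`, `φ ≠ 0`       ⟹ `VEq (Q₁ B) π 0 W`   (both charts);
* `RedK r (Φ (w W)) φ`, `φ ≠ 0`   ⟹ `VEq (Q₂ B) π 0 W`   (both charts);
* `InvKq` (series level)          ⟹ `InvK π m W`         (both charts);
* `CtxQ.loc_both` : the conclusions of `loc0` and `locinf` from series level hypotheses only.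
-/

set_option autoImplicit false
set_option linter.unusedSectionVars false
set_option linter.style.haveILetI false

open Polynomial ModularCurve

namespace Fermat.Agent.S43.Q

open Fermat.Agent.Crux.G Fermat.Agent.SS.G2 Fermat.Agent.S44.Loc Fermat.Agent.SS.GM2
open Fermat.Agent.S44.Bridge
open Fermat.Agent.S28 (V J evAt uInf)
open Fermat.Agent.Crux.GM (castS)
open Fermat.Agent.S44

noncomputable section

variable {M ℓ : ℕ} [NeZero M] [NeZero ℓ]
variable {A K k : Type} [CommRing A] [IsDomain A] [IsDiscreteValuationRing A] [Field K]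
  [CharZero K] [Algebra A K] [IsFractionRing A K] [Field k] [Finite k]
  {r : A →+* k} {π : A}
variable {F : Type} [Field F] [Algebra A F] {Φ : F →+* LaurentSeries K} {w : F →+* F}
variable {E : Type} [Field E] [CharZero E] [Algebra A E] [Algebra E F] [IsScalarTower A E F]
  [FiniteDimensional E F]

/-- generic chart: Gauss unit at `v_∞` ⟹ `VEq Q₁ π 0`. -/
theorem vEq₁_of_redK {x : E} (hxt : Transcendental A x)
    (hgen : ∀ c : E, ∃ P Q : A[X], Q ≠ 0 ∧ c * aeval x Q = aeval x P) {hπ : Prime π}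
    {tk : LaurentSeries k} :
    letI := algL (A := A) F x
    ∀ {B : BridgeData hπ F k (LaurentSeries k)}, Good M r Φ w tk B →
    ∀ {W : F} {φ : LaurentSeries k}, RedK r (Φ W) φ → φ ≠ 0 → VEq (Q₁ B) (pi π F) 0 W := by
  letI := algE (A := A) x
  letI := algL (A := A) F x
  haveI := isFractionRing_algE hxt hgen
  haveI : IsScalarTower A[X] E F := isScalarTower_alg x
  intro B G W φ h hφ
  haveI : IsNoetherianRing (SM A F) := isNoetherianRing_SM E
  haveI : IsFractionRing (SM A F) F := isFractionRing_SM E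
  exact G.redData₁.vEq_of (j := 0) (z := W) (a := φ) (G.locPrin₁ E)
    (by rw [neg_zero, zpow_zero, mul_one]; exact h) hφ

/-- generic chart: Gauss unit at `v_0` ⟹ `VEq Q₂ π 0`. -/
theorem vEq₂_of_redK {x : E} (hxt : Transcendental A x)
    (hgen : ∀ c : E, ∃ P Q : A[X], Q ≠ 0 ∧ c * aeval x Q = aeval x P) {hπ : Prime π}
    {tk : LaurentSeries k} :
    letI := algL (A := A) F x
    ∀ {B : BridgeData hπ F k (LaurentSeries k)}, Good M r Φ w tk B →
    ∀ {W : F} {φ : LaurentSeries k}, RedK r (Φ (w W)) φ → φ ≠ 0 → VEq (Q₂ B) (pi π F) 0 W := by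
  letI := algE (A := A) x
  letI := algL (A := A) F x
  haveI := isFractionRing_algE hxt hgen
  haveI : IsScalarTower A[X] E F := isScalarTower_alg x
  intro B G W φ h hφ
  haveI : IsNoetherianRing (SM A F) := isNoetherianRing_SM E
  haveI : IsFractionRing (SM A F) F := isFractionRing_SM E
  exact G.redData₂.vEq_of (j := 0) (z := W) (a := φ) (G.locPrin₂ E)
    (by rw [neg_zero, zpow_zero, mul_one]; exact h) hφ

namespace CtxQ

variable {X : E} (C : CtxQ M ℓ r π Φ w X)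
include C

/-- `InvKq` ⟹ `InvK`, chart `X`. -/
theorem invK0 {m : ℕ} {W : F} (hinv : InvKq K (M * ℓ) m (castS K (Xh M ℓ)) (Φ W)) :
    letI := algL (A := A) F X
    InvK (pi π F) m W := by
  letI := algL (A := A) F X
  refine invK_iff.2 ?_
  exact C.S.invKx_of_invKq X m W (by rw [C.hX]; exact hinv)

/-- `InvKq` ⟹ `InvK`, chart `1/X`. -/
theorem invKinf {m : ℕ} {W : F} (hinv : InvKq K (M * ℓ) m (castS K (Xh M ℓ))⁻¹ (Φ W)) :
    letI := algL (A := A) F X⁻¹
    InvK (pi π F) m W := by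
  letI := algL (A := A) F X⁻¹
  refine invK_iff.2 ?_
  exact C.S.invKx_of_invKq X⁻¹ m W (by rw [map_inv₀, map_inv₀, C.hX]; exact hinv)

/-- **(LOC) from series level hypotheses**: `W` a Gauss unit at `v_∞` and at `v_0`, `m ∣ div W` on both charts. -/
theorem loc_both {e : ℕ} (he : 0 < e) {u u' : A} (hu : u * u' = 1) (hℓe : (ℓ : A) = π ^ e * u)
    {m : ℕ} (hm : 0 < m) (hmT : Nat.Coprime m (12 * e)) {W : F} {φ₁ φ₂ : LaurentSeries k}
    (h₁ : RedK r (Φ W) φ₁) (hφ₁ : φ₁ ≠ 0) (h₂ : RedK r (Φ (w W)) φ₂) (hφ₂ : φ₂ ≠ 0)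
    (hinv0 : InvKq K (M * ℓ) m (castS K (Xh M ℓ)) (Φ W))
    (hinvinf : InvKq K (M * ℓ) m (castS K (Xh M ℓ))⁻¹ (Φ W)) :
    (letI := algL (A := A) F X
     ∀ n : Ideal (SM A F), n.IsMaximal → pi π F ∈ n →
      ∃ (y : F) (s t : SM A F), y ≠ 0 ∧ s ∉ n ∧ t ∉ n ∧
        algebraMap (SM A F) F s * (y ^ m * W) = algebraMap (SM A F) F t) ∧
    (letI := algL (A := A) F X⁻¹
     ∀ n : Ideal (SM A F), n.IsMaximal → pi π F ∈ n → algebraMap A[X] (SM A F) Polynomial.X ∈ n →
      ∃ (y : F) (s t : SM A F), y ≠ 0 ∧ s ∉ n ∧ t ∉ n ∧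
        algebraMap (SM A F) F s * (y ^ m * W) = algebraMap (SM A F) F t) := by
  constructor
  · letI := algL (A := A) F X
    obtain ⟨B, G, -⟩ := C.exists_good0
    exact C.loc0 he hu hℓe G hm hmT (vEq₁_of_redK C.hXt C.hgen G h₁ hφ₁)
      (vEq₂_of_redK C.hXt C.hgen G h₂ hφ₂) (C.invK0 hinv0)
  · letI := algL (A := A) F X⁻¹
    obtain ⟨B, G, -⟩ := C.exists_goodinf
    exact C.locinf G hm
      (vEq₁_of_redK (transcendental_inv C.hXt) (hgen_inv C.hXt C.hgen) G h₁ hφ₁)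
      (vEq₂_of_redK (transcendental_inv C.hXt) (hgen_inv C.hXt C.hgen) G h₂ hφ₂) (C.invKinf hinvinf)

end CtxQ

end

end Fermat.Agent.S43.Q
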