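import Fermat.Agent.S44.XD.Chart
import Fermat.Agent.S44.XD.Field
import Fermat.Agent.S36.Norm.KForm.Basic
import Fermat.Agent.SS.GM2.Desc.WK

/-!
# S43 / Q / XDmem : `XD`, `uInf` in `F_K(M p)` and `Setup.exists_XD` WITHOUT a `p`-th root of unity in `K`

`K` any field with `[Algebra K Qb]`.  Membership by descent (`S36.Norm.KForm.mem_fullC_of_coeffMap_mem`) from `Qb`;
`w XD = uInf` by comparison of the abstract `w` of `SS.GM2.Setup` with the Atkin-Lehner involution of `FF (M p)`.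
-/

set_option autoImplicit false
set_option linter.unusedSectionVars false

open Polynomial ModularCurve AlgebraicCurve

namespace Fermat.Agent.S43.QMem

open Fermat.Agent.Crux.G
open Fermat.Agent.S28 (V J evAt uInf)
open Fermat.Agent.Crux.GM (castS)
open Fermat.Agent.SS.GM2 (Setup RedK Jh evK)
open Fermat.Agent.S44.XD
open Fermat.Agent.ES
open Fermat.Agent.SS (IsAL exists_isAL)

noncomputable section

section Field

variable (K : Type) [Field K] [Algebra K Qb] (M : ℕ) [NeZero M] (p : ℕ) [NeZero p] [Fact p.Prime]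

theorem XD_mem_fullC' : XD K p ∈ modularFunctionFieldFullC K (M * p) := by
  apply Fermat.Agent.S36.Norm.KForm.mem_fullC_of_coeffMap_mem K (M * p)
  rw [coeffMap_XD]
  exact XD_mem M p

theorem uInf_mem_fullC' : uInf K p ∈ modularFunctionFieldFullC K (M * p) := by
  apply Fermat.Agent.S36.Norm.KForm.mem_fullC_of_coeffMap_mem K (M * p)
  rw [Fermat.Agent.S28.Build.coeffMap_uInf]
  exact uInf_mem M p

end Field

section Chart

variable {M p : ℕ} [NeZero M] [NeZero p] [Fact p.Prime]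
variable {A K k : Type} [CommRing A] [IsDomain A] [IsDiscreteValuationRing A] [Field K] [CharZero K]
  [Algebra A K] [IsFractionRing A K] [Algebra K Qb] [Field k] {r : A →+* k} {π : A}
variable {F : Type} [Field F] [Algebra A F] {Φ : F →+* LaurentSeries K} {w : F →+* F}

/-- `w` fixes the constants. -/
theorem Setup.w_const (S : Setup M p r π Φ w) {f : F} {c : K}
    (hf : Φ f = algebraMap K (LaurentSeries K) c) : w f = f := by
  obtain ⟨a, b, hb, rfl⟩ := IsFractionRing.div_surjective (A := A) c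
  have hb0 : algebraMap A K b ≠ 0 := by
    intro h
    exact (nonZeroDivisors.ne_zero hb) ((IsFractionRing.injective A K) (by rw [h, map_zero]))
  have hC : ∀ x : K, algebraMap K (LaurentSeries K) x = HahnSeries.C x := fun x => by
    rw [algebraMap_laurentSeries_eq_single]; rfl
  have e : f * algebraMap A F b = algebraMap A F a := by
    apply Φ.injective
    rw [map_mul, hf, S.hΦA, S.hΦA, hC, ← map_mul, div_mul_cancel₀ _ hb0]
  have hbF : algebraMap A F b ≠ 0 := by
    intro h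
    have := congrArg Φ h
    rw [S.hΦA, map_zero, map_eq_zero] at this
    exact hb0 this
  have e2 := congrArg w e
  rw [map_mul, S.hwA, S.hwA, ← e] at e2
  exact mul_right_cancel₀ hbF e2

/-- the abstract `w` is the Atkin-Lehner involution. -/
theorem Setup.w_compat (S : Setup M p r π Φ w) {w' : FF (M * p) →ₐ[Qb] FF (M * p)}
    (hw' : IsAL M p w') {x : LaurentSeries K} (hx : x ∈ modularFunctionFieldFullC K (M * p)) :
    ∀ f : F, Φ f = x → ∀ h : coeffMap (algebraMap K Qb) x ∈ modularFunctionFieldBar (M * p),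
      ((w' ⟨_, h⟩ : FF (M * p)) : LaurentSeries Qb) = coeffMap (algebraMap K Qb) (Φ (w f)) := by
  have hq : p.Prime := Fact.out
  have hN : NeZero (M * p) := ⟨Nat.mul_ne_zero (NeZero.ne M) (NeZero.ne p)⟩
  induction hx using IntermediateField.adjoin_induction with
  | mem x hx =>
    intro f hf h
    obtain ⟨d, hd0, hd, rfl⟩ := hx
    by_cases hqd : p ∣ d
    · obtain ⟨e, rfl⟩ := hqd
      have heM : e ∣ M := by
        rw [mul_comm M p] at hd
        exact Nat.dvd_of_mul_dvd_mul_left hq.pos hd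
      have : NeZero e := ⟨fun h0 => NeZero.ne M (Nat.eq_zero_of_zero_dvd (h0 ▸ heM))⟩
      have hmem : qExpand K e (jqModC K) ∈ modularFunctionFieldFullC K M :=
        jqModCd_mem_full K M heM
      have e1 : qExpand K (p * e) (jqModC K) = qExpand K p (qExpand K e (jqModC K)) :=
        (qExpand_qExpand (N := e) p _).symm
      obtain ⟨fe, hfe⟩ := (S.hΦF _).1 (Fermat.Agent.SS.GM2.WK.mem_of_mem (q := p) hmem)
      have h1 : Φ (w fe) = qExpand K p (qExpand K e (jqModC K)) := by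
        rw [S.hwα fe (by rw [hfe]; exact hmem), hfe]
      have h2 : f = w fe := Φ.injective (by rw [hf, h1, e1])
      have h' : coeffMap (algebraMap K Qb) (qExpand K p (qExpand K e (jqModC K)))
          ∈ modularFunctionFieldBar (M * p) := e1 ▸ h
      have e2 : (⟨_, h⟩ : FF (M * p)) = ⟨_, h'⟩ :=
        Subtype.ext (congrArg (coeffMap (algebraMap K Qb)) e1)
      rw [e2, h2, S.hww, hfe]
      exact Fermat.Agent.SS.GM2.WK.w_beta hw' hmem h'
    · have hdM : d ∣ M := by
        have hc : Nat.Coprime d p := ((Nat.Prime.coprime_iff_not_dvd hq).mpr hqd).symm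
        exact hc.dvd_of_dvd_mul_right hd
      have hmem : qExpand K d (jqModC K) ∈ modularFunctionFieldFullC K M :=
        jqModCd_mem_full K M hdM
      rw [S.hwα f (by rw [hf]; exact hmem), hf]
      exact Fermat.Agent.SS.GM2.WK.w_alpha hw' hmem h
  | algebraMap c =>
    intro f hf h
    have e : (⟨_, h⟩ : FF (M * p)) = algebraMap Qb (FF (M * p)) (algebraMap K Qb c) := by
      apply Subtype.ext
      exact Crux.coeffMap_algebraMap' K c
    rw [e, AlgHom.commutes, Setup.w_const S hf, hf, Crux.coeffMap_algebraMap' K c]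
    rfl
  | add x y hx hy ihx ihy =>
    intro f hf h
    obtain ⟨fx, hfx⟩ := (S.hΦF _).1 hx
    obtain ⟨fy, hfy⟩ := (S.hΦF _).1 hy
    have hx' := Crux.coeffMap_mem_bar K (M * p) hx
    have hy' := Crux.coeffMap_mem_bar K (M * p) hy
    have e : (⟨_, h⟩ : FF (M * p)) = ⟨_, hx'⟩ + ⟨_, hy'⟩ := Subtype.ext (map_add _ _ _)
    have e3 : f = fx + fy := Φ.injective (by rw [hf, map_add, hfx, hfy])
    rw [e, e3, map_add, map_add, map_add, map_add, ← ihx fx hfx hx', ← ihy fy hfy hy']
    rfl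
  | inv x hx ihx =>
    intro f hf h
    obtain ⟨fx, hfx⟩ := (S.hΦF _).1 hx
    have hx' := Crux.coeffMap_mem_bar K (M * p) hx
    have e : (⟨_, h⟩ : FF (M * p)) = (⟨_, hx'⟩ : FF (M * p))⁻¹ := Subtype.ext (map_inv₀ _ _)
    have e3 : f = fx⁻¹ := Φ.injective (by rw [hf, map_inv₀, hfx])
    rw [e, e3, map_inv₀, map_inv₀, map_inv₀, map_inv₀, ← ihx fx hfx hx']
    rfl
  | mul x y hx hy ihx ihy =>
    intro f hf h
    obtain ⟨fx, hfx⟩ := (S.hΦF _).1 hx
    obtain ⟨fy, hfy⟩ := (S.hΦF _).1 hy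
    have hx' := Crux.coeffMap_mem_bar K (M * p) hx
    have hy' := Crux.coeffMap_mem_bar K (M * p) hy
    have e : (⟨_, h⟩ : FF (M * p)) = ⟨_, hx'⟩ * ⟨_, hy'⟩ := Subtype.ext (map_mul _ _ _)
    have e3 : f = fx * fy := Φ.injective (by rw [hf, map_mul, hfx, hfy])
    rw [e, e3, map_mul, map_mul, map_mul, map_mul, ← ihx fx hfx hx', ← ihy fy hfy hy']
    rfl

/-- `w XD = uInf`, no root of unity. -/
theorem Setup.w_XD' (S : Setup M p r π Φ w) {Xf Uf : F}
    (hX : Φ Xf = XD K p) (hU : Φ Uf = uInf K p) : w Xf = Uf := by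
  obtain ⟨w', hw'⟩ := exists_isAL M p S.hℓ S.hℓM
  have hmem : coeffMap (algebraMap K Qb) (XD K p) ∈ modularFunctionFieldBar (M * p) := by
    rw [coeffMap_XD]; exact XD_mem M p
  have h := Setup.w_compat S hw' (XD_mem_fullC' K M p) Xf hX hmem
  have e : (⟨_, hmem⟩ : FF (M * p)) = XDF M p := Subtype.ext (coeffMap_XD p _)
  rw [e, coe_isAL_XDF hw', ← Fermat.Agent.S28.Build.coeffMap_uInf (algebraMap K Qb), ← hU] at h
  exact Φ.injective ((coeffMap (algebraMap K Qb)).injective h.symm)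

/-- **`XD` in the abstract setting, no root of unity.** -/
theorem Setup.exists_XD' (S : Setup M p r π Φ w) {Jf Yf : F}
    (hJ : Φ Jf = castS K (Jh M)) (hY : Φ Yf = castS K (Jh (M * p))) :
    ∃ Xf Uf : F, Φ Xf = XD K p ∧ Φ Uf = uInf K p ∧
      Xf * Uf = algebraMap A F ((p : A) ^ 12) ∧ w Xf = Uf ∧ w Uf = Xf ∧
      IntX A (Jf * Yf) Xf ∧ IntX A (Jf * Yf) Uf ∧
      RedK r (Φ Xf) (XD k p) ∧ RedK r (Φ (w Uf)) (XD k p) ∧
      RedK r (Φ Uf) 0 ∧ RedK r (Φ (w Xf)) 0 := by
  obtain ⟨Xf, hX⟩ := (S.hΦF (XD K p)).1 (XD_mem_fullC' K M p)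
  obtain ⟨Uf, hU⟩ := (S.hΦF (uInf K p)).1 (uInf_mem_fullC' K M p)
  have hw : w Xf = Uf := Setup.w_XD' S hX hU
  have hw' : w Uf = Xf := by rw [← hw, S.hww]
  refine ⟨Xf, Uf, hX, hU, Setup.XD_mul S hX hU, hw, hw',
    Setup.intX_of_isIntegralElem_J S hJ hY (isIntegralElem_XD A p) (by rw [hX, coeffMap_XD]),
    Setup.intX_of_isIntegralElem_J S hJ hY (isIntegralElem_uInf A p)
      (by rw [hU, Fermat.Agent.S28.Build.coeffMap_uInf]), ?_, ?_, ?_, ?_⟩
  · rw [hX]; exact redK_XD
  · rw [hw', hX]; exact redK_XD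
  · rw [hU]; exact Setup.redK_uInf S
  · rw [hw, hU]; exact Setup.redK_uInf S

end Chart

end

end Fermat.Agent.S43.QMem
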